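import Fermat.Agent.MurtySaradha.Main
import Mathlib.LinearAlgebra.Lagrange

/-!
# Series of rational functions with simple rational poles

Partial fractions and a shift of every pole into `(0, 1]` leave, up to an explicit finite sum, the
sum `∑ Φ n / n` of an algebraic periodic function, which is `0` or transcendental by Baker.
-/

set_option autoImplicit false

noncomputable section

open Filter Topology Finset

namespace FA.RationalSeries

theorem exists_nat_eq_mul {x : ℚ} (hx : 0 ≤ x) {q : ℕ} (hd : x.den ∣ q) :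
    ∃ a : ℕ, (a : ℚ) = x * q := by
  obtain ⟨k, rfl⟩ := hd
  refine ⟨x.num.toNat * k, ?_⟩
  rw [Nat.cast_mul, Nat.cast_mul, ← mul_assoc, Rat.mul_den_eq_num, ← Int.cast_natCast,
    Int.toNat_of_nonneg (Rat.num_nonneg.2 hx)]

/-- The poles in `(0, 1]`. -/
theorem zero_or_transcendental_unit {ι : Type*} (S : Finset ι) (x : ι → ℚ) (c : ι → ℂ)
    (hx : ∀ i ∈ S, 0 < x i ∧ x i ≤ 1) (hc : ∀ i ∈ S, IsAlgebraic ℚ (c i))
    (h0 : ∑ i ∈ S, c i = 0) :
    ∃ l : ℂ, Tendsto (fun N => ∑ n ∈ range N, ∑ i ∈ S, c i / ((n : ℂ) + (x i : ℂ))) atTop (𝓝 l) ∧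
      (l = 0 ∨ Transcendental ℚ l) := by
  classical
  set q := ∏ i ∈ S, (x i).den
  have : NeZero q := ⟨Finset.prod_ne_zero_iff.2 fun i _ => (x i).den_nz⟩
  have hex : ∀ i ∈ S, ∃ a : ℕ, (a : ℚ) = x i * q := fun i hi =>
    exists_nat_eq_mul (hx i hi).1.le (dvd_prod_of_mem _ hi)
  choose! a ha using hex
  have hq : (0 : ℚ) < q := Nat.cast_pos.2 (NeZero.pos q)
  have hab : ∀ i ∈ S, 1 ≤ a i ∧ a i ≤ q := fun i hi => ⟨by
    have h := mul_pos (hx i hi).1 hq
    rw [← ha i hi] at h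
    exact_mod_cast h, by
    have h := mul_le_of_le_one_left hq.le (hx i hi).2
    rw [← ha i hi] at h
    exact_mod_cast h⟩
  set Φ : ZMod q → ℂ := fun z => ∑ i ∈ S, c i * MurtySaradha.classInd (a i) z with hΦdef
  have hΦ : ∑ z, Φ z = 0 := by
    rw [hΦdef, Finset.sum_comm]
    simpa only [← Finset.mul_sum, MurtySaradha.sum_classInd, mul_one] using h0
  have halg : ∀ z, IsAlgebraic ℚ (Φ z) := fun z => IsIntegral.isAlgebraic (IsIntegral.sum _
    fun i hi => (hc i hi).isIntegral.mul (MurtySaradha.isAlgebraic_classInd _ z).isIntegral)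
  have hqC : (q : ℂ) ≠ 0 := Nat.cast_ne_zero.2 (NeZero.ne q)
  refine ⟨(q : ℂ) * PeriodicValue.logValue Φ, ?_, ?_⟩
  · have ht : Tendsto (fun N : ℕ => q * N + 1) atTop atTop :=
      tendsto_atTop_mono (fun N => by
        have := Nat.le_mul_of_pos_left N (NeZero.pos q)
        simp only [id]
        omega) tendsto_id
    refine (((PeriodicValue.tendsto_series hΦ).comp ht).const_mul (q : ℂ)).congr fun N => ?_
    simp only [Function.comp_apply, hΦdef, Finset.sum_div, mul_div_assoc]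
    rw [Finset.sum_comm, Finset.mul_sum]
    conv_rhs => rw [Finset.sum_comm]
    refine Finset.sum_congr rfl fun i hi => ?_
    rw [← Finset.mul_sum, MurtySaradha.sum_classInd_div (hab i hi).1 (hab i hi).2, Finset.mul_sum,
      Finset.mul_sum]
    refine Finset.sum_congr rfl fun k _ => ?_
    have e : ((q * k + a i : ℕ) : ℂ) = (q : ℂ) * ((k : ℂ) + (x i : ℂ)) := by
      push_cast
      rw [show ((a i : ℕ) : ℂ) = ((x i * q : ℚ) : ℂ) by rw [← ha i hi, Rat.cast_natCast]]
      push_cast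
      ring
    rw [e, mul_left_comm, one_div, mul_inv, mul_inv_cancel_left₀ hqC, div_eq_mul_inv]
  · rw [or_iff_not_imp_right]
    intro hl
    have h := (isAlgebraic_algebraMap (R := ℚ) (A := ℂ) (q : ℚ)⁻¹).mul (not_not.1 hl)
    rw [map_inv₀, map_natCast, inv_mul_cancel_left₀ hqC] at h
    rw [PeriodicValue.logValue_eq_zero_of_isAlgebraic halg h, mul_zero]

/-- Shifting a pole by a natural number adds finitely many terms. -/
theorem tendsto_shift (x : ℂ) (k : ℕ) :
    Tendsto (fun N => ∑ n ∈ range N, (1 / ((n : ℂ) + x) - 1 / ((n : ℂ) + x + k))) atTop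
      (𝓝 (∑ i ∈ range k, 1 / ((i : ℂ) + x))) := by
  set f : ℕ → ℂ := fun n => 1 / ((n : ℂ) + x) with hf
  have hlim : ∀ i : ℕ, Tendsto (fun N => f (N + i)) atTop (𝓝 0) := fun i => by
    refine tendsto_zero_iff_norm_tendsto_zero.2 ?_
    simp only [hf, one_div, norm_inv]
    refine tendsto_inv_atTop_zero.comp (tendsto_atTop_mono (fun N => ?_)
      (tendsto_atTop_add_const_right atTop (-‖(i : ℂ) + x‖) tendsto_natCast_atTop_atTop))
    have := norm_sub_le_norm_add (N : ℂ) ((i : ℂ) + x)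
    rw [Complex.norm_natCast] at this
    rw [Nat.cast_add, add_assoc]
    linarith
  have h := ((tendsto_const_nhds (x := ∑ i ∈ range k, f i)).sub
    (tendsto_finsetSum (range k) fun i _ => hlim i))
  rw [Finset.sum_const_zero, sub_zero] at h
  refine h.congr fun N => ?_
  rw [Finset.sum_sub_distrib, eq_sub_iff_add_eq]
  have e : ∀ n : ℕ, 1 / ((n : ℂ) + x + k) = f (k + n) := fun n => by
    simp only [hf, Nat.cast_add]
    ring_nf
  simp only [e]
  have h1 := Finset.sum_range_add f k N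
  have h2 := Finset.sum_range_add f N k
  rw [add_comm k N] at h1
  linear_combination h2 - h1

/-- The finite sum left by moving `r` into `(0, 1]`. -/
def shiftTerm (r : ℚ) : ℚ :=
  if 1 ≤ ⌈r⌉ then -∑ i ∈ range (⌈r⌉ - 1).toNat, 1 / ((i : ℚ) + (r - ((⌈r⌉ : ℚ) - 1)))
  else ∑ i ∈ range (1 - ⌈r⌉).toNat, 1 / ((i : ℚ) + r)

theorem tendsto_shiftTerm (r : ℚ) :
    Tendsto (fun N => ∑ n ∈ range N, (1 / ((n : ℂ) + (r : ℂ)) -
        1 / ((n : ℂ) + ((r - ((⌈r⌉ : ℚ) - 1) : ℚ) : ℂ)))) atTop (𝓝 (shiftTerm r : ℂ)) := by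
  rw [shiftTerm]
  split_ifs with h
  · obtain ⟨k, hk⟩ := Int.eq_ofNat_of_zero_le (show 0 ≤ ⌈r⌉ - 1 by omega)
    have hkC : (⌈r⌉ : ℂ) - 1 = (k : ℂ) := by exact_mod_cast congrArg (Int.cast : ℤ → ℂ) hk
    rw [hk, Int.toNat_natCast]
    push_cast
    refine (tendsto_shift ((r : ℂ) - ((⌈r⌉ : ℂ) - 1)) k).neg.congr fun N => ?_
    rw [← Finset.sum_neg_distrib]
    refine Finset.sum_congr rfl fun n _ => ?_
    rw [hkC]
    ring_nf
  · obtain ⟨k, hk⟩ := Int.eq_ofNat_of_zero_le (show 0 ≤ 1 - ⌈r⌉ by omega)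
    have hkC : (1 : ℂ) - (⌈r⌉ : ℂ) = (k : ℂ) := by exact_mod_cast congrArg (Int.cast : ℤ → ℂ) hk
    rw [hk, Int.toNat_natCast]
    push_cast
    refine (tendsto_shift (r : ℂ) k).congr fun N => Finset.sum_congr rfl fun n _ => ?_
    rw [← hkC]
    ring_nf

variable {P : Polynomial ℂ} {S : Finset ℚ}

/-- The partial fraction coefficient at `-r`. -/
def residue (P : Polynomial ℂ) (S : Finset ℚ) (r : ℚ) : ℂ :=
  P.eval (-(r : ℂ)) / ∏ s ∈ S.erase r, ((s : ℂ) - (r : ℂ))

theorem isAlgebraic_residue (hP : ∀ i, IsAlgebraic ℚ (P.coeff i)) (r : ℚ) :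
    IsAlgebraic ℚ (residue P S r) := by
  have hrat : ∀ t : ℚ, IsAlgebraic ℚ (t : ℂ) := fun t => by
    simpa using isAlgebraic_algebraMap (R := ℚ) (A := ℂ) t
  rw [residue, div_eq_mul_inv, Polynomial.eval_eq_sum_range]
  refine (IsIntegral.isAlgebraic (IsIntegral.sum _ fun i _ =>
    (hP i).isIntegral.mul (((hrat r).neg).isIntegral.pow i))).mul (IsAlgebraic.inv ?_)
  simp only [← Rat.cast_sub, ← Rat.cast_prod]
  exact hrat _

theorem sum_residue (hdeg : P.natDegree + 2 ≤ S.card) : ∑ r ∈ S, residue P S r = 0 := by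
  have hinj : Set.InjOn (fun r : ℚ => -(r : ℂ)) S :=
    fun a _ b _ h => Rat.cast_injective (neg_injective h)
  have h := Lagrange.coeff_eq_sum hinj (P := P) (lt_of_le_of_lt Polynomial.degree_le_natDegree
    (Nat.cast_lt.2 (by omega)))
  rw [Polynomial.coeff_eq_zero_of_natDegree_lt (by omega)] at h
  simpa only [residue, sub_neg_eq_add, neg_add_eq_sub] using h.symm

theorem partial_fractions (hdeg : P.natDegree + 2 ≤ S.card) {z : ℂ}
    (hz : ∀ r ∈ S, z + (r : ℂ) ≠ 0) :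
    P.eval z / ∏ r ∈ S, (z + (r : ℂ)) = ∑ r ∈ S, residue P S r / (z + (r : ℂ)) := by
  have hinj : Set.InjOn (fun r : ℚ => -(r : ℂ)) S :=
    fun a _ b _ h => Rat.cast_injective (neg_injective h)
  have hne : ∀ r ∈ S, z ≠ -(r : ℂ) := fun r hr h => hz r hr (by rw [h, neg_add_cancel])
  conv_lhs => rw [Lagrange.eq_interpolate hinj (f := P) (lt_of_le_of_lt
    Polynomial.degree_le_natDegree (Nat.cast_lt.2 (by omega))),
    Lagrange.eval_interpolate_not_at_node _ hne, Lagrange.eval_nodal]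
  simp only [sub_neg_eq_add]
  rw [mul_div_cancel_left₀ _ (Finset.prod_ne_zero_iff.2 hz)]
  refine Finset.sum_congr rfl fun r hr => ?_
  simp only [Lagrange.nodalWeight, Finset.prod_inv_distrib, sub_neg_eq_add, residue,
    neg_add_eq_sub]
  field_simp

/-- The explicit finite sum. -/
def finitePart (P : Polynomial ℂ) (S : Finset ℚ) : ℂ :=
  ∑ r ∈ S, residue P S r * (shiftTerm r : ℂ)

/-- **Adhikari–Saradha–Shorey–Tijdeman.** -/
theorem finitePart_or_transcendental (hP : ∀ i, IsAlgebraic ℚ (P.coeff i))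
    (hdeg : P.natDegree + 2 ≤ S.card) (hS : ∀ r ∈ S, ∀ n : ℕ, r ≠ -(n : ℚ)) :
    ∃ l : ℂ, Tendsto (fun N => ∑ n ∈ range N, P.eval (n : ℂ) / ∏ r ∈ S, ((n : ℂ) + (r : ℂ)))
      atTop (𝓝 l) ∧ (l = finitePart P S ∨ Transcendental ℚ l) := by
  set x : ℚ → ℚ := fun r => r - ((⌈r⌉ : ℚ) - 1) with hx
  obtain ⟨l₀, hl₀, hdich⟩ := zero_or_transcendental_unit S x (residue P S)
    (fun r _ => ⟨by rw [hx]; linarith [Int.ceil_lt_add_one r],
      by rw [hx]; linarith [Int.le_ceil r]⟩)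
    (fun r _ => isAlgebraic_residue hP r) (sum_residue hdeg)
  refine ⟨finitePart P S + l₀, ?_, ?_⟩
  · have hshift := (tendsto_finsetSum S fun r _ =>
      (tendsto_shiftTerm r).const_mul (residue P S r)).add hl₀
    refine hshift.congr fun N => ?_
    simp only [Finset.mul_sum]
    rw [Finset.sum_comm, ← Finset.sum_add_distrib]
    refine Finset.sum_congr rfl fun n _ => ?_
    have hn : ∀ r ∈ S, (n : ℂ) + (r : ℂ) ≠ 0 := fun r hr h => hS r hr n (by
      have h' : ((r : ℚ) : ℂ) = ((-(n : ℚ) : ℚ) : ℂ) := by push_cast; linear_combination h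
      exact_mod_cast h')
    rw [partial_fractions hdeg hn, ← Finset.sum_add_distrib]
    refine Finset.sum_congr rfl fun r _ => ?_
    ring
  · rcases hdich with h | h
    · exact Or.inl (by rw [h, add_zero])
    · refine Or.inr fun halg => h ?_
      have hE : IsAlgebraic ℚ (finitePart P S) := IsIntegral.isAlgebraic (IsIntegral.sum _
        fun r _ => (isAlgebraic_residue hP r).isIntegral.mul (by
          have := isAlgebraic_algebraMap (R := ℚ) (A := ℂ) (shiftTerm r)
          simpa using this.isIntegral))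
      simpa using halg.sub hE

theorem shiftTerm_eq_zero {r : ℚ} (h0 : 0 < r) (h1 : r ≤ 1) : shiftTerm r = 0 := by
  have : ⌈r⌉ = 1 := Int.ceil_eq_iff.2 ⟨by push_cast; linarith, by push_cast; linarith⟩
  simp [shiftTerm, this]

end FA.RationalSeries

end
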